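import Fermat.Agent.LT.A2.H247.GaussProdAbs
import Fermat.Agent.LT.H11.LC

/-!
# Row LT, tower A2, station A2.03.1.1.06, leaf 07: `LF54.LeafGaussProd` (helper247)

OFF-MAIN.  `leafGaussProd247 : LF54.LeafGaussProd`, VERBATIM against
`LT/A2/H54/LocFinSpec.lean` (helper54@26071c838, sha256 8ccd9c5c6ed3304a).

* abstract core: `GaussProdAbs.lean` (`gaussProd_abs247`);
* `isLocallyConstant_char247`: a continuous unitary character of an ultrametric normed field is
  locally constant (no small subgroups in the circle: `nss247`);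
* `exists_sb247`: the indicator function of `𝒪_v × 𝒪_v` is Schwartz--Bruhat and not zero
  (`𝒪_v` compact: `LT/H11/LC.lean` of helper11, byte-identical copy).
-/

set_option autoImplicit false

open IsDedekindDomain NumberField MeasureTheory
open scoped Topology

noncomputable section

namespace Fermat.Agent.LT.A2.H247

open Fermat.Agent.LT.A2 Fermat.Agent.LT.A2.WX467 Fermat.Agent.LT.A2.LF54

/-! ## No small subgroups -/

theorem unit_facts247 (w : ℂ) (hw : ‖w‖ = 1) :
    w.re * w.re + w.im * w.im = 1 ∧ (w ^ 2).re = 2 * (w.re * w.re) - 1 := by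
  have h1 : w.re * w.re + w.im * w.im = 1 := by
    have := Complex.normSq_eq_norm_sq w
    rw [hw, Complex.normSq_apply] at this
    simpa using this
  refine ⟨h1, ?_⟩
  rw [pow_two, Complex.mul_re]
  linarith

theorem re_gt_half247 (w : ℂ) (hw : ‖w‖ = 1) (h : ‖w - 1‖ < 1) : 1 - w.re < 1 / 2 := by
  have h1 := (unit_facts247 w hw).1
  have h2 : ‖w - 1‖ ^ 2 < 1 := by
    have h0 : 0 ≤ ‖w - 1‖ := norm_nonneg _
    nlinarith
  have h3 := Complex.normSq_eq_norm_sq (w - 1)
  rw [Complex.normSq_apply] at h3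
  simp only [Complex.sub_re, Complex.one_re, Complex.sub_im, Complex.one_im, sub_zero] at h3
  nlinarith

/-- A complex number of absolute value `1` all of whose powers are at distance `< 1` from `1`
is `1`. -/
theorem nss247 (z : ℂ) (hz : ‖z‖ = 1) (h : ∀ m : ℕ, ‖z ^ m - 1‖ < 1) : z = 1 := by
  have hn : ∀ m : ℕ, ‖z ^ (2 ^ m)‖ = 1 := fun m => by rw [norm_pow, hz, one_pow]
  have hd : ∀ m : ℕ, 1 - (z ^ (2 ^ m)).re < 1 / 2 := fun m =>
    re_gt_half247 _ (hn m) (h _)
  have hd0 : ∀ m : ℕ, 0 ≤ 1 - (z ^ (2 ^ m)).re := by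
    intro m
    have h1 := (unit_facts247 _ (hn m)).1
    nlinarith [mul_self_nonneg (z ^ (2 ^ m)).im, mul_self_nonneg ((z ^ (2 ^ m)).re - 1)]
  have hstep : ∀ m : ℕ, 3 * (1 - (z ^ (2 ^ m)).re) ≤ 1 - (z ^ (2 ^ (m + 1))).re := by
    intro m
    have h2 := (unit_facts247 _ (hn m)).2
    have h3 : z ^ (2 ^ (m + 1)) = (z ^ (2 ^ m)) ^ 2 := by
      rw [← pow_mul, pow_succ]
    rw [h3, h2]
    have ha := hd m
    have hb := hd0 m
    nlinarith
  have hind : ∀ m : ℕ, (3 : ℝ) ^ m * (1 - z.re) ≤ 1 - (z ^ (2 ^ m)).re := by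
    intro m
    induction m with
    | zero => simp
    | succ m ih =>
      calc (3 : ℝ) ^ (m + 1) * (1 - z.re) = 3 * ((3 : ℝ) ^ m * (1 - z.re)) := by ring
        _ ≤ 3 * (1 - (z ^ (2 ^ m)).re) := by linarith
        _ ≤ 1 - (z ^ (2 ^ (m + 1))).re := hstep m
  have hre : z.re = 1 := by
    by_contra hne
    have h0 : 0 ≤ 1 - z.re := by simpa using hd0 0
    have hpos : 0 < 1 - z.re := lt_of_le_of_ne h0 (fun h' => hne (by linarith))
    obtain ⟨m, hm⟩ := pow_unbounded_of_one_lt (1 / (1 - z.re)) (by norm_num : (1 : ℝ) < 3)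
    have h1 : 1 < (3 : ℝ) ^ m * (1 - z.re) := by
      rwa [div_lt_iff₀ hpos] at hm
    have h2 := hind m
    have h3 := hd m
    linarith
  have him : z.im = 0 := by
    have h1 := (unit_facts247 z hz).1
    rw [hre] at h1
    have : z.im * z.im = 0 := by linarith
    exact mul_self_eq_zero.mp this
  exact Complex.ext (by simpa using hre) (by simpa using him)

/-! ## Characters of an ultrametric field are locally constant -/

theorem isLocallyConstant_char247 {k : Type} [NormedField k] [IsUltrametricDist k]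
    (ψ : k → ℂ) (hc : Continuous ψ) (hmul : ∀ x y : k, ψ (x + y) = ψ x * ψ y)
    (hone : ∀ x : k, ‖ψ x‖ = 1) : IsLocallyConstant ψ := by
  have h0 : ψ 0 = 1 := psi_zero247 ψ hmul hone
  have hU : ψ ⁻¹' (Metric.ball (1 : ℂ) 1) ∈ 𝓝 (0 : k) := by
    apply hc.continuousAt.preimage_mem_nhds
    rw [h0]
    exact Metric.ball_mem_nhds 1 one_pos
  obtain ⟨ε, hε, hball⟩ := Metric.mem_nhds_iff.1 hU
  have hpow : ∀ (x : k) (m : ℕ), ψ ((m : k) * x) = ψ x ^ m := by
    intro x m
    induction m with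
    | zero => simp [h0]
    | succ m ih =>
      have : ((m + 1 : ℕ) : k) * x = (m : k) * x + x := by push_cast; ring
      rw [this, hmul, ih, pow_succ]
  have hker : ∀ x : k, ‖x‖ < ε → ψ x = 1 := by
    intro x hx
    apply nss247 (ψ x) (hone x)
    intro m
    rw [← hpow]
    have hm : (m : k) * x ∈ Metric.ball (0 : k) ε := by
      rw [mem_ball_zero_iff, norm_mul]
      calc ‖(m : k)‖ * ‖x‖ ≤ 1 * ‖x‖ :=
            mul_le_mul_of_nonneg_right (IsUltrametricDist.norm_natCast_le_one k m)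
              (norm_nonneg x)
        _ = ‖x‖ := one_mul _
        _ < ε := hx
    have := hball hm
    rw [Set.mem_preimage, Metric.mem_ball, dist_eq_norm] at this
    exact this
  rw [IsLocallyConstant.iff_exists_open]
  intro x
  refine ⟨Metric.ball x ε, Metric.isOpen_ball, Metric.mem_ball_self hε, fun y hy => ?_⟩
  have hy' : ‖y - x‖ < ε := by
    rwa [Metric.mem_ball, dist_eq_norm] at hy
  have : y = x + (y - x) := by ring
  rw [this, hmul, hker _ hy', mul_one]

/-! ## A Schwartz--Bruhat function which is not zero -/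

theorem exists_sb247 (K : Type) [Field K] [NumberField K] (v : HeightOneSpectrum (𝓞 K)) :
    ∃ Φ : v.adicCompletion K × v.adicCompletion K → ℂ, IsSB Φ ∧ ∃ ξ, Φ ξ ≠ 0 := by
  have hcl : IsClopen (v.adicCompletionIntegers K : Set (v.adicCompletion K)) :=
    ⟨Valued.isClosed_valuationSubring (v.adicCompletion K),
      Valued.isOpen_valuationSubring (v.adicCompletion K)⟩
  have hcp : IsCompact (v.adicCompletionIntegers K : Set (v.adicCompletion K)) :=
    Fermat.Agent.LT.H11.LC.isCompact_integers_h11 K v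
  have hS : IsClopen ((v.adicCompletionIntegers K : Set (v.adicCompletion K)) ×ˢ
      (v.adicCompletionIntegers K : Set (v.adicCompletion K))) := hcl.prod hcl
  refine ⟨⇑(LocallyConstant.charFn ℂ hS), ⟨(LocallyConstant.charFn ℂ hS).isLocallyConstant, ?_⟩,
    (0, 0), ?_⟩
  · apply HasCompactSupport.intro (hcp.prod hcp)
    intro x hx
    exact (LocallyConstant.charFn_eq_zero ℂ x hS).2 hx
  · have : ((0 : v.adicCompletion K), (0 : v.adicCompletion K)) ∈
        (v.adicCompletionIntegers K : Set (v.adicCompletion K)) ×ˢ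
          (v.adicCompletionIntegers K : Set (v.adicCompletion K)) :=
      ⟨zero_mem _, zero_mem _⟩
    rw [(LocallyConstant.charFn_eq_one ℂ _ hS).2 this]
    exact one_ne_zero

/-! ## The leaf -/

/-- **A2.03.1.1.06.07 GAUSS-PROD**: `‖a‖² G(a) G(-a) = c`. -/
theorem leafGaussProd247 : LF54.LeafGaussProd := by
  intro K _ _ v t n ψ μ c G hctx hF
  exact gaussProd_abs247 t n ψ μ hctx.char.2.1 hctx.char.2.2.1
    (isLocallyConstant_char247 ψ hctx.char.1 hctx.char.2.1 hctx.char.2.2.1) hF
    (exists_sb247 K v)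

end Fermat.Agent.LT.A2.H247

end
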