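import Fermat.Agent.LT.A2.H54.LocFinSpec

/-!
# Row LT, tower A2, station A2.03.1.1.06, leaf 07 `LF54.LeafGaussProd` -- abstract core (helper247)

OFF-MAIN.  For ANY normed field `k`, a locally constant unitary character `ψ`, a Fourier
certificate `FourierCert t n ψ μ c G` and ONE Schwartz--Bruhat function which is not identically
zero:  `‖a‖² G(a) G(-a) = c`.

Route (memo of helper54, par. 4): `X_a = FT M_a FT`.  By inversion `X_a X_{-a} Φ = c² Φ`; by the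
Gauss identity (twice), completion of the square and the dilation rule
`X_a X_{-a} Φ = c ‖a‖² G(a) G(-a) Φ`.  Only the certificate is used (no integrability, no Fubini).
-/

set_option autoImplicit false

open MeasureTheory
open scoped Topology

noncomputable section

namespace Fermat.Agent.LT.A2.H247

open Fermat.Agent.LT.A2 Fermat.Agent.LT.A2.WX467 Fermat.Agent.LT.A2.LF54

section Abs

variable {k : Type} [NormedField k]

/-! ## Characters -/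

theorem psi_zero247 (ψ : k → ℂ) (hmul : ∀ x y : k, ψ (x + y) = ψ x * ψ y)
    (hone : ∀ x : k, ‖ψ x‖ = 1) : ψ 0 = 1 := by
  have h0 : ψ 0 ≠ 0 := by
    intro h
    have := hone 0
    rw [h, norm_zero] at this
    exact zero_ne_one this
  have h1 : ψ 0 = ψ 0 * ψ 0 := by
    conv_lhs => rw [← add_zero (0 : k)]
    exact hmul 0 0
  have h2 : ψ 0 * 1 = ψ 0 * ψ 0 := by rw [mul_one]; exact h1
  exact (mul_left_cancel₀ h0 h2).symm

theorem psi_mul_of_add_eq_zero247 (ψ : k → ℂ) (hmul : ∀ x y : k, ψ (x + y) = ψ x * ψ y)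
    (hone : ∀ x : k, ‖ψ x‖ = 1) {x y : k} (h : x + y = 0) : ψ x * ψ y = 1 := by
  rw [← hmul, h]
  exact psi_zero247 ψ hmul hone

/-! ## Algebra of the forms -/

theorem qfL_neg247 (t n : k) (y : k × k) : qfL t n (-y) = qfL t n y := by
  simp only [qfL, Prod.fst_neg, Prod.snd_neg]
  ring

theorem qfL_smul247 (t n s : k) (y : k × k) : qfL t n (s • y) = s ^ 2 * qfL t n y := by
  simp only [qfL, Prod.smul_fst, Prod.smul_snd, smul_eq_mul]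
  ring

theorem bfL_smul_left247 (t n s : k) (ξ y : k × k) :
    bfL t n (s • ξ) y = s * bfL t n ξ y := by
  simp only [bfL, qfL, Prod.smul_fst, Prod.smul_snd, smul_eq_mul, Prod.fst_add, Prod.snd_add]
  ring

theorem bfL_smul_right247 (t n s : k) (ξ y : k × k) :
    bfL t n ξ (s • y) = s * bfL t n ξ y := by
  simp only [bfL, qfL, Prod.smul_fst, Prod.smul_snd, smul_eq_mul, Prod.fst_add, Prod.snd_add]
  ring

theorem bfL_neg_right247 (t n : k) (ξ y : k × k) :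
    bfL t n ξ (-y) = bfL t n (-ξ) y := by
  simp only [bfL, qfL, Prod.fst_neg, Prod.snd_neg, Prod.fst_add, Prod.snd_add]
  ring

theorem qfL_add247 (t n : k) (z ξ : k × k) :
    qfL t n (z + ξ) = qfL t n z + qfL t n ξ + bfL t n ξ z := by
  simp only [bfL, qfL, Prod.fst_add, Prod.snd_add]
  ring

theorem continuous_qfL247 (t n : k) : Continuous (qfL t n) := by
  unfold qfL
  fun_prop

theorem continuous_bfL247 (t n : k) (ξ : k × k) : Continuous (bfL t n ξ) := by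
  unfold bfL qfL
  fun_prop

/-! ## The integral -/

theorem intL_congr247 (μ : @Measure k (borel k)) {f g : k × k → ℂ} (h : ∀ y, f y = g y) :
    intL μ f = intL μ g := by
  have : f = g := funext h
  rw [this]

theorem intL_const_mul247 (μ : @Measure k (borel k)) (z : ℂ) (f : k × k → ℂ) :
    intL μ (fun y => z * f y) = z * intL μ f := by
  unfold intL
  exact integral_const_mul z f

theorem ftL_congr247 (t n : k) (ψ : k → ℂ) (μ : @Measure k (borel k)) {f g : k × k → ℂ}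
    (h : ∀ y, f y = g y) (ξ : k × k) : ftL t n ψ μ f ξ = ftL t n ψ μ g ξ := by
  have : f = g := funext h
  rw [this]

theorem ftL_const_mul247 (t n : k) (ψ : k → ℂ) (μ : @Measure k (borel k)) (z : ℂ)
    (f : k × k → ℂ) (ξ : k × k) :
    ftL t n ψ μ (fun y => z * f y) ξ = z * ftL t n ψ μ f ξ := by
  unfold ftL
  rw [← intL_const_mul247]
  apply intL_congr247
  intro y
  ring

/-! ## Schwartz--Bruhat bookkeeping -/

theorem isSB_lc_mul247 {Φ g : k × k → ℂ} (hΦ : IsSB Φ) (hg : IsLocallyConstant g) :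
    IsSB (fun y => g y * Φ y) := by
  refine ⟨?_, ?_⟩
  · exact hg.mul hΦ.1
  · exact hΦ.2.mul_left

theorem isSB_mul_lc247 {Φ g : k × k → ℂ} (hΦ : IsSB Φ) (hg : IsLocallyConstant g) :
    IsSB (fun y => Φ y * g y) := by
  refine ⟨?_, ?_⟩
  · exact hΦ.1.mul hg
  · exact hΦ.2.mul_right

theorem isSB_comp_smul247 {Φ : k × k → ℂ} (hΦ : IsSB Φ) {s : k} (hs : s ≠ 0) :
    IsSB (fun y => Φ (s • y)) := by
  refine ⟨?_, ?_⟩
  · exact hΦ.1.comp_continuous (continuous_const_smul s)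
  · exact hΦ.2.comp_homeomorph (Homeomorph.smulOfNeZero s hs)

theorem lc_psi_comp247 {ψ : k → ℂ} (hlc : IsLocallyConstant ψ) {f : k × k → k}
    (hf : Continuous f) : IsLocallyConstant (fun y => ψ (f y)) :=
  hlc.comp_continuous hf


/-! ## Change of variables for a dilation -/

theorem cov_smul247 (μ : @Measure k (borel k)) (hcov : CovP μ) {s : k} (hs : s ≠ 0)
    {f : k × k → ℂ} (hf : IsSB f) :
    intL μ (fun y => f (s • y)) = (((‖s‖ ^ 2)⁻¹ : ℝ) : ℂ) * intL μ f := by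
  have hdet : (!![s, 0; 0, s] : Matrix (Fin 2) (Fin 2) k).det = s * s := by
    rw [Matrix.det_fin_two_of]
    ring
  have hdet0 : (!![s, 0; 0, s] : Matrix (Fin 2) (Fin 2) k).det ≠ 0 := by
    rw [hdet]
    exact mul_ne_zero hs hs
  have h := hcov !![s, 0; 0, s] hdet0 f hf
  have hact : ∀ y : k × k, actL (!![s, 0; 0, s] : Matrix (Fin 2) (Fin 2) k) y = s • y := by
    intro y
    apply Prod.ext
    · simp [actL]
    · simp [actL]
  have h2 : intL μ (fun y => f (s • y))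
      = intL μ (fun y => f (actL (!![s, 0; 0, s] : Matrix (Fin 2) (Fin 2) k) y)) := by
    apply intL_congr247
    intro y
    rw [hact]
  rw [h2, h, hdet, norm_mul, pow_two]

/-! ## The operators -/

variable (t n : k) (ψ : k → ℂ) (μ : @Measure k (borel k))

/-- `M_a Φ = ψ(a Q) · Φ`. -/
def mOp247 (a : k) (Φ : k × k → ℂ) : k × k → ℂ := fun y => ψ (a * qfL t n y) * Φ y

/-- `X_a = FT M_a FT`. -/
def xOp247 (a : k) (Φ : k × k → ℂ) : k × k → ℂ :=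
  ftL t n ψ μ (fun y => ψ (a * qfL t n y) * ftL t n ψ μ Φ y)

theorem isSB_mOp247 (hlc : IsLocallyConstant ψ) (a : k) {Φ : k × k → ℂ} (hΦ : IsSB Φ) :
    IsSB (mOp247 t n ψ a Φ) := by
  unfold mOp247
  exact isSB_lc_mul247 hΦ
    (lc_psi_comp247 hlc (f := fun y => a * qfL t n y)
      (continuous_const.mul (continuous_qfL247 t n)))

theorem isSB_xOp247 (hlc : IsLocallyConstant ψ) (hsb : FtSbP t n ψ μ) (a : k)
    {Φ : k × k → ℂ} (hΦ : IsSB Φ) : IsSB (xOp247 t n ψ μ a Φ) := by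
  unfold xOp247
  exact hsb _ (isSB_mOp247 t n ψ hlc a (hsb Φ hΦ))

/-- Completion of the square: the right-hand side of the Gauss identity as a Fourier
transform. -/
theorem kform247 (hmul : ∀ x y : k, ψ (x + y) = ψ x * ψ y) {a : k} (ha : a ≠ 0)
    (Φ : k × k → ℂ) (ξ : k × k) :
    intL μ (fun z => Φ z * ψ (-(qfL t n (z + ξ)) / a))
      = ψ (-(a⁻¹) * qfL t n ξ)
          * ftL t n ψ μ (mOp247 t n ψ (-(a⁻¹)) Φ) ((-(a⁻¹)) • ξ) := by
  unfold ftL mOp247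
  rw [← intL_const_mul247]
  apply intL_congr247
  intro z
  have harg : -(qfL t n (z + ξ)) / a
      = -(a⁻¹) * qfL t n ξ + (-(a⁻¹) * qfL t n z + bfL t n ((-(a⁻¹)) • ξ) z) := by
    rw [bfL_smul_left247, qfL_add247]
    field_simp
    ring
  rw [harg, hmul, hmul]
  ring

/-- The Gauss identity in operator form:
`X_a Φ (ξ) = G(a) ψ(-Q(ξ)/a) FT(M_{-1/a} Φ)(-ξ/a)`. -/
theorem xOp_eq247 (hmul : ∀ x y : k, ψ (x + y) = ψ x * ψ y) {G : k → ℂ}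
    (hG : GaussP t n ψ μ G) {a : k} (ha : a ≠ 0) {Φ : k × k → ℂ} (hΦ : IsSB Φ) (ξ : k × k) :
    xOp247 t n ψ μ a Φ ξ
      = G a * (ψ (-(a⁻¹) * qfL t n ξ)
          * ftL t n ψ μ (mOp247 t n ψ (-(a⁻¹)) Φ) ((-(a⁻¹)) • ξ)) := by
  unfold xOp247
  rw [hG a ha Φ hΦ ξ, kform247 t n ψ μ hmul ha Φ ξ]


/-- The dilation rule `FT D_s = ‖s‖⁻² D_{1/s} FT`. -/
theorem ft_dilate247 (hlc : IsLocallyConstant ψ) (hcov : CovP μ) {s : k} (hs : s ≠ 0)
    {Ψ : k × k → ℂ} (hΨ : IsSB Ψ) (η : k × k) :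
    ftL t n ψ μ (fun y => Ψ (s • y)) η
      = (((‖s‖ ^ 2)⁻¹ : ℝ) : ℂ) * ftL t n ψ μ Ψ (s⁻¹ • η) := by
  have hf : IsSB (fun y => Ψ y * ψ (bfL t n (s⁻¹ • η) y)) :=
    isSB_mul_lc247 hΨ (lc_psi_comp247 hlc (continuous_bfL247 t n (s⁻¹ • η)))
  have h := cov_smul247 μ hcov hs hf
  have h1 : ftL t n ψ μ (fun y => Ψ (s • y)) η
      = intL μ (fun y => (fun y => Ψ y * ψ (bfL t n (s⁻¹ • η) y)) (s • y)) := by
    unfold ftL
    apply intL_congr247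
    intro y
    show Ψ (s • y) * ψ (bfL t n η y) = Ψ (s • y) * ψ (bfL t n (s⁻¹ • η) (s • y))
    rw [bfL_smul_left247, bfL_smul_right247, ← mul_assoc, inv_mul_cancel₀ hs, one_mul]
  rw [h1, h]
  rfl

/-- `X_a X_{-a} Φ = c² Φ` by inversion. -/
theorem xx_inv247 (hmul : ∀ x y : k, ψ (x + y) = ψ x * ψ y) (hone : ∀ x : k, ‖ψ x‖ = 1)
    (hlc : IsLocallyConstant ψ) {c : ℝ} (hsb : FtSbP t n ψ μ) (hinv : InvP t n ψ μ c)
    (hcov : CovP μ) (a : k) {Φ : k × k → ℂ} (hΦ : IsSB Φ) (ξ : k × k) :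
    xOp247 t n ψ μ a (xOp247 t n ψ μ (-a) Φ) ξ = (c : ℂ) * ((c : ℂ) * Φ ξ) := by
  have hFΦ : IsSB (ftL t n ψ μ Φ) := hsb Φ hΦ
  have hM : IsSB (mOp247 t n ψ (-a) (ftL t n ψ μ Φ)) := isSB_mOp247 t n ψ hlc (-a) hFΦ
  have hneg : (-1 : k) ≠ 0 := neg_ne_zero.mpr one_ne_zero
  -- the inner function
  have h1 : ∀ y : k × k,
      ψ (a * qfL t n y) * ftL t n ψ μ (xOp247 t n ψ μ (-a) Φ) y
        = (c : ℂ) * ftL t n ψ μ Φ ((-1 : k) • y) := by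
    intro y
    have hx : xOp247 t n ψ μ (-a) Φ = ftL t n ψ μ (mOp247 t n ψ (-a) (ftL t n ψ μ Φ)) := rfl
    rw [hx, hinv _ hM y]
    unfold mOp247
    rw [qfL_neg247, neg_one_smul]
    have hp : ψ (a * qfL t n y) * ψ (-a * qfL t n y) = 1 :=
      psi_mul_of_add_eq_zero247 ψ hmul hone (by ring)
    calc ψ (a * qfL t n y) * ((c : ℂ) * (ψ (-a * qfL t n y) * ftL t n ψ μ Φ (-y)))
        = (ψ (a * qfL t n y) * ψ (-a * qfL t n y)) * ((c : ℂ) * ftL t n ψ μ Φ (-y)) := by ring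
      _ = (c : ℂ) * ftL t n ψ μ Φ (-y) := by rw [hp, one_mul]
  have h2 : xOp247 t n ψ μ a (xOp247 t n ψ μ (-a) Φ) ξ
      = ftL t n ψ μ (fun y => (c : ℂ) * ftL t n ψ μ Φ ((-1 : k) • y)) ξ := by
    unfold xOp247
    exact ftL_congr247 t n ψ μ h1 ξ
  rw [h2, ftL_const_mul247, ft_dilate247 t n ψ μ hlc hcov hneg hFΦ ξ]
  have h3 : ((-1 : k))⁻¹ • ξ = -ξ := by
    rw [inv_neg, inv_one, neg_one_smul]
  rw [h3, hinv Φ hΦ (-ξ), neg_neg]
  simp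

/-- `X_a X_{-a} Φ = c ‖a‖² G(a) G(-a) Φ` by the Gauss identity. -/
theorem xx_gauss247 (hmul : ∀ x y : k, ψ (x + y) = ψ x * ψ y) (hone : ∀ x : k, ‖ψ x‖ = 1)
    (hlc : IsLocallyConstant ψ) {c : ℝ} {G : k → ℂ} (hsb : FtSbP t n ψ μ)
    (hinv : InvP t n ψ μ c) (hcov : CovP μ) (hG : GaussP t n ψ μ G) {a : k} (ha : a ≠ 0)
    {Φ : k × k → ℂ} (hΦ : IsSB Φ) (ξ : k × k) :
    xOp247 t n ψ μ a (xOp247 t n ψ μ (-a) Φ) ξ
      = (c : ℂ) * (((‖a‖ ^ 2 : ℝ) : ℂ) * (G a * G (-a))) * Φ ξ := by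
  have hna : -a ≠ 0 := neg_ne_zero.mpr ha
  have hai : a⁻¹ ≠ 0 := inv_ne_zero ha
  have hX : IsSB (xOp247 t n ψ μ (-a) Φ) := isSB_xOp247 t n ψ μ hlc hsb (-a) hΦ
  have hM2 : IsSB (mOp247 t n ψ a⁻¹ Φ) := isSB_mOp247 t n ψ hlc a⁻¹ hΦ
  have hΨ2 : IsSB (ftL t n ψ μ (mOp247 t n ψ a⁻¹ Φ)) := hsb _ hM2
  rw [xOp_eq247 t n ψ μ hmul hG ha hX ξ]
  -- the function under the outer Fourier transform
  have h1 : ∀ y : k × k, mOp247 t n ψ (-(a⁻¹)) (xOp247 t n ψ μ (-a) Φ) y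
      = G (-a) * ftL t n ψ μ (mOp247 t n ψ a⁻¹ Φ) (a⁻¹ • y) := by
    intro y
    have hx := xOp_eq247 t n ψ μ hmul hG hna hΦ y
    have hneg : -((-a)⁻¹) = a⁻¹ := by rw [inv_neg, neg_neg]
    rw [hneg] at hx
    show ψ (-(a⁻¹) * qfL t n y) * xOp247 t n ψ μ (-a) Φ y = _
    rw [hx]
    have hp : ψ (-(a⁻¹) * qfL t n y) * ψ (a⁻¹ * qfL t n y) = 1 :=
      psi_mul_of_add_eq_zero247 ψ hmul hone (by ring)
    calc ψ (-(a⁻¹) * qfL t n y)
          * (G (-a) * (ψ (a⁻¹ * qfL t n y)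
              * ftL t n ψ μ (mOp247 t n ψ a⁻¹ Φ) (a⁻¹ • y)))
        = (ψ (-(a⁻¹) * qfL t n y) * ψ (a⁻¹ * qfL t n y))
            * (G (-a) * ftL t n ψ μ (mOp247 t n ψ a⁻¹ Φ) (a⁻¹ • y)) := by ring
      _ = G (-a) * ftL t n ψ μ (mOp247 t n ψ a⁻¹ Φ) (a⁻¹ • y) := by rw [hp, one_mul]
  rw [ftL_congr247 t n ψ μ h1, ftL_const_mul247,
    ft_dilate247 t n ψ μ hlc hcov hai hΨ2]
  have h3 : (a⁻¹)⁻¹ • (-(a⁻¹)) • ξ = -ξ := by
    rw [inv_inv, smul_smul, mul_neg, mul_inv_cancel₀ ha, neg_one_smul]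
  rw [h3, hinv _ hM2 (-ξ), neg_neg]
  have hnorm : (((‖a⁻¹‖ ^ 2)⁻¹ : ℝ) : ℂ) = ((‖a‖ ^ 2 : ℝ) : ℂ) := by
    rw [norm_inv, inv_pow, inv_inv]
  rw [hnorm]
  have hp : ψ (-(a⁻¹) * qfL t n ξ) * ψ (a⁻¹ * qfL t n ξ) = 1 :=
    psi_mul_of_add_eq_zero247 ψ hmul hone (by ring)
  show G a * (ψ (-(a⁻¹) * qfL t n ξ) * (G (-a) * (((‖a‖ ^ 2 : ℝ) : ℂ)
      * ((c : ℂ) * (ψ (a⁻¹ * qfL t n ξ) * Φ ξ))))) = _
  calc G a * (ψ (-(a⁻¹) * qfL t n ξ) * (G (-a) * (((‖a‖ ^ 2 : ℝ) : ℂ)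
          * ((c : ℂ) * (ψ (a⁻¹ * qfL t n ξ) * Φ ξ)))))
      = (ψ (-(a⁻¹) * qfL t n ξ) * ψ (a⁻¹ * qfL t n ξ))
          * ((c : ℂ) * (((‖a‖ ^ 2 : ℝ) : ℂ) * (G a * G (-a))) * Φ ξ) := by ring
    _ = (c : ℂ) * (((‖a‖ ^ 2 : ℝ) : ℂ) * (G a * G (-a))) * Φ ξ := by rw [hp, one_mul]

/-- **GAUSS-PROD, abstract form.**  `‖a‖² G(a) G(-a) = c` from the Fourier certificate, for a
locally constant unitary character and as soon as ONE Schwartz--Bruhat function is not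
identically zero. -/
theorem gaussProd_abs247 (hmul : ∀ x y : k, ψ (x + y) = ψ x * ψ y)
    (hone : ∀ x : k, ‖ψ x‖ = 1) (hlc : IsLocallyConstant ψ) {c : ℝ} {G : k → ℂ}
    (hF : FourierCert t n ψ μ c G)
    (hex : ∃ Φ : k × k → ℂ, IsSB Φ ∧ ∃ ξ : k × k, Φ ξ ≠ 0) :
    GaussProdP c G := by
  intro a ha
  obtain ⟨Φ, hΦ, ξ, hξ⟩ := hex
  have e1 := xx_inv247 t n ψ μ hmul hone hlc hF.ft_sb hF.inv hF.cov a hΦ ξ
  have e2 := xx_gauss247 t n ψ μ hmul hone hlc hF.ft_sb hF.inv hF.cov hF.gauss ha hΦ ξ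
  rw [e1] at e2
  have hc : (c : ℂ) ≠ 0 := by
    exact_mod_cast hF.c_pos.ne'
  have e3 : (c : ℂ) * ((c : ℂ) * Φ ξ)
      = (c : ℂ) * ((((‖a‖ ^ 2 : ℝ) : ℂ) * (G a * G (-a))) * Φ ξ) := by
    rw [e2]; ring
  have e4 := mul_left_cancel₀ hc e3
  exact (mul_right_cancel₀ hξ e4).symm

end Abs

end Fermat.Agent.LT.A2.H247

end
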